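/-
S13 / P1, piece D-C (helper12): the division-polynomial criterion at an ARBITRARY affine point,
by a plain induction `n, n+1 ⇒ n+2`, from the two universal identities `(⋆)`, `(⋆⋆)` (taken as
hypotheses `StarAdd`, `StarMul`; they are delivered by the generic point, piece D-GP) and the
definitional identity `(□)` (`sq_id`, proved here).

Main result: `crit`:  for an affine point `P` and every `n : ℕ`
* `n • P = 0 ↔ (W.ΨSq n).eval (xOf P) = 0`,
* `n • P ≠ 0 → xOf (n • P) * (W.ΨSq n).eval (xOf P) = (W.Φ n).eval (xOf P)`,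
* `(W.ΨSq n).eval (xOf P) = 0 → (W.Φ n).eval (xOf P) ≠ 0`.
-/
import Fermat.Agent.S13.DivXA

set_option autoImplicit false
set_option linter.unusedSectionVars false

namespace Fermat.Agent.S13.DivX

open WeierstrassCurve WeierstrassCurve.Affine Polynomial Fermat.Agent.S05

variable {K : Type*} [Field K] (W : WeierstrassCurve K)

/-- The universal identity `(⋆)`: sum formula for `x((n+1)P) + x((n-1)P)`, denominators cleared. -/
def StarAdd (n : ℤ) : Prop :=
  W.Φ (n + 1) * W.ΨSq (n - 1) + W.Φ (n - 1) * W.ΨSq (n + 1) =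
    2 * W.Φ n * X * (W.Φ n + X * W.ΨSq n) + C W.b₂ * X * W.Φ n * W.ΨSq n
      + C W.b₄ * (W.Φ n + X * W.ΨSq n) * W.ΨSq n + C W.b₆ * W.ΨSq n ^ 2

/-- The universal identity `(⋆⋆)`: product formula for `x((n+1)P) * x((n-1)P)`. -/
def StarMul (n : ℤ) : Prop :=
  W.Φ (n + 1) * W.Φ (n - 1) =
    X ^ 2 * W.Φ n ^ 2 - C W.b₄ * X * W.Φ n * W.ΨSq n
      - C W.b₆ * (W.Φ n + X * W.ΨSq n) * W.ΨSq n - C W.b₈ * W.ΨSq n ^ 2

/-- The definitional identity `(□)`. -/
theorem sq_id (n : ℤ) :
    (W.Φ n - X * W.ΨSq n) ^ 2 = W.ΨSq (n + 1) * W.ΨSq (n - 1) := by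
  rw [WeierstrassCurve.Φ, WeierstrassCurve.ΨSq, WeierstrassCurve.ΨSq, WeierstrassCurve.ΨSq]
  rcases Int.even_or_odd n with hn | hn
  · have h1 : ¬ Even (n + 1) := by
      rw [Int.not_even_iff_odd]; exact hn.add_one
    have h2 : ¬ Even (n - 1) := by
      rw [Int.not_even_iff_odd]; exact hn.sub_odd odd_one
    simp only [if_pos hn, if_neg h1, if_neg h2]
    ring
  · have hn' : ¬ Even n := Int.not_even_iff_odd.mpr hn
    have h1 : Even (n + 1) := hn.add_one
    have h2 : Even (n - 1) := hn.sub_odd odd_one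
    simp only [if_neg hn', if_pos h1, if_pos h2]
    ring

lemma eval_ΨSq_two (x : K) : (W.ΨSq 2).eval x = cub W x := by
  rw [ΨSq_two, WeierstrassCurve.Ψ₂Sq]
  simp only [cub, eval_add, eval_mul, eval_C, eval_pow, eval_X]

lemma eval_Φ_two (x : K) : (W.Φ 2).eval x = dupNum W x := by
  rw [Φ_two]
  simp only [dupNum, eval_sub, eval_mul, eval_C, eval_pow, eval_X]

/-- `(⋆)` holds at `n = 1`. -/
theorem starAdd_one : StarAdd W 1 := by
  unfold StarAdd
  have h2 : (1 : ℤ) + 1 = 2 := rfl
  have h0 : (1 : ℤ) - 1 = 0 := rfl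
  rw [h2, h0, ΨSq_zero, Φ_zero, Φ_one, ΨSq_one, ΨSq_two, WeierstrassCurve.Ψ₂Sq]
  simp only [map_mul, map_ofNat]
  ring

/-- `(⋆⋆)` holds at `n = 1`. -/
theorem starMul_one : StarMul W 1 := by
  unfold StarMul
  have h2 : (1 : ℤ) + 1 = 2 := rfl
  have h0 : (1 : ℤ) - 1 = 0 := rfl
  rw [h2, h0, Φ_zero, Φ_one, ΨSq_one, Φ_two]
  simp only [map_mul, map_ofNat]
  ring


/-! ### Evaluated forms of the three identities -/

/-- `u n = ΨSq_n(x)`. -/
noncomputable def uEv (x : K) (n : ℤ) : K := (W.ΨSq n).eval x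

/-- `f n = Φ_n(x)`. -/
noncomputable def fEv (x : K) (n : ℤ) : K := (W.Φ n).eval x

lemma uEv_zero (x : K) : uEv W x 0 = 0 := by simp [uEv]
lemma uEv_one (x : K) : uEv W x 1 = 1 := by simp [uEv]
lemma fEv_zero (x : K) : fEv W x 0 = 1 := by simp [fEv]
lemma fEv_one (x : K) : fEv W x 1 = x := by simp [fEv]
lemma uEv_two (x : K) : uEv W x 2 = cub W x := eval_ΨSq_two W x
lemma fEv_two (x : K) : fEv W x 2 = dupNum W x := eval_Φ_two W x

lemma sq_ev (x : K) (n : ℤ) :
    (fEv W x n - x * uEv W x n) ^ 2 = uEv W x (n + 1) * uEv W x (n - 1) := by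
  have h := congrArg (Polynomial.eval x) (sq_id W n)
  simpa only [uEv, fEv, eval_pow, eval_sub, eval_mul, eval_X] using h

lemma add_ev {n : ℤ} (h : StarAdd W n) (x : K) :
    fEv W x (n + 1) * uEv W x (n - 1) + fEv W x (n - 1) * uEv W x (n + 1) =
      2 * fEv W x n * x * (fEv W x n + x * uEv W x n) + W.b₂ * x * fEv W x n * uEv W x n
        + W.b₄ * (fEv W x n + x * uEv W x n) * uEv W x n + W.b₆ * uEv W x n ^ 2 := by
  have h' := congrArg (Polynomial.eval x) h
  simpa only [uEv, fEv, eval_pow, eval_sub, eval_add, eval_mul, eval_X, eval_C, eval_ofNat]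
    using h'

lemma mul_ev {n : ℤ} (h : StarMul W n) (x : K) :
    fEv W x (n + 1) * fEv W x (n - 1) =
      x ^ 2 * fEv W x n ^ 2 - W.b₄ * x * fEv W x n * uEv W x n
        - W.b₆ * (fEv W x n + x * uEv W x n) * uEv W x n - W.b₈ * uEv W x n ^ 2 := by
  have h' := congrArg (Polynomial.eval x) h
  simpa only [uEv, fEv, eval_pow, eval_sub, eval_add, eval_mul, eval_X, eval_C] using h'

/-- If `f n = z * u n` then the right-hand side of `(⋆)` is `u n ^ 2 * sumNum z x`. -/
lemma add_ev' {n : ℤ} (h : StarAdd W n) (x z : K) (hz : fEv W x n = z * uEv W x n) :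
    fEv W x (n + 1) * uEv W x (n - 1) + fEv W x (n - 1) * uEv W x (n + 1) =
      uEv W x n ^ 2 * sumNum W z x := by
  rw [add_ev W h x, hz, sumNum]; ring

/-- If `f n = z * u n` then the right-hand side of `(⋆⋆)` is `u n ^ 2 * prodNum z x`. -/
lemma mul_ev' {n : ℤ} (h : StarMul W n) (x z : K) (hz : fEv W x n = z * uEv W x n) :
    fEv W x (n + 1) * fEv W x (n - 1) = uEv W x n ^ 2 * prodNum W z x := by
  rw [mul_ev W h x, hz, prodNum]; ring

lemma sumNum_self (x : K) : sumNum W x x = cub W x := by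
  simp only [sumNum, cub]; ring

lemma prodNum_self (x : K) : prodNum W x x = dupNum W x := by
  simp only [prodNum, dupNum]; ring

/-- At a nonsingular point, `cub` and `dupNum` do not vanish simultaneously (char `≠ 2`). -/
lemma cub_or_dupNum_ne_zero (h2 : (2 : K) ≠ 0) {x y : K} (h : W.toAffine.Nonsingular x y) :
    cub W x ≠ 0 ∨ dupNum W x ≠ 0 := by
  by_cases hc : cub W x = 0
  · right
    have hη : eta W x y = 0 := by
      have := eta_sq W h.1
      rw [hc] at this
      exact pow_eq_zero_iff (two_ne_zero) |>.mp this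
    have hd := dcub_ne_zero_of_eta_eq_zero W h2 h hη
    have h4 := four_dupNum W x
    rw [hc, mul_zero, sub_zero] at h4
    intro h0
    rw [h0, mul_zero] at h4
    exact hd (pow_eq_zero_iff (two_ne_zero) |>.mp h4.symm)
  · exact Or.inl hc


/-! ### The criterion at an arbitrary affine point -/

section Points

variable {W} [DecidableEq K]

lemma cub_or_dupNum_xOf_ne_zero (h2 : (2 : K) ≠ 0) {P : W.toAffine.Point} (hP : P ≠ 0) :
    cub W (xOf P) ≠ 0 ∨ dupNum W (xOf P) ≠ 0 := by
  cases P with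
  | zero => exact absurd rfl hP
  | some x y h => exact cub_or_dupNum_ne_zero W h2 h

lemma two_nsmul_eq_zero_iff_cub {P : W.toAffine.Point} (hP : P ≠ 0) :
    2 • P = 0 ↔ cub W (xOf P) = 0 := by
  rw [two_nsmul_eq_zero_iff hP, ← etaOf_sq hP]
  exact (pow_eq_zero_iff two_ne_zero).symm

/-- The statement proved by induction. -/
def CritAt (P : W.toAffine.Point) (n : ℕ) : Prop :=
  (n • P = 0 ↔ uEv W (xOf P) n = 0) ∧
  (n • P ≠ 0 → xOf (n • P) * uEv W (xOf P) n = fEv W (xOf P) n) ∧
  (uEv W (xOf P) n = 0 → fEv W (xOf P) n ≠ 0)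

lemma critAt_zero (P : W.toAffine.Point) : CritAt P 0 := by
  refine ⟨?_, ?_, ?_⟩
  · simp [uEv_zero]
  · intro h; exact absurd (zero_nsmul P) h
  · intro _; simp [fEv_zero]

lemma critAt_one {P : W.toAffine.Point} (hP : P ≠ 0) : CritAt P 1 := by
  refine ⟨?_, ?_, ?_⟩
  · simp [uEv_one, hP]
  · intro _; simp [uEv_one, fEv_one]
  · intro h; simp [uEv_one] at h

/-- The induction step `n, n+1 ⇒ n+2`. -/
theorem critAt_step (h2 : (2 : K) ≠ 0) {P : W.toAffine.Point} (hP : P ≠ 0) (n : ℕ)
    (hA : StarAdd W ((n : ℤ) + 1)) (hM : StarMul W ((n : ℤ) + 1))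
    (h0 : CritAt P n) (h1 : CritAt P (n + 1)) : CritAt P (n + 2) := by
  set x := xOf P with hx
  -- index bookkeeping
  have e1 : ((n + 1 : ℕ) : ℤ) = (n : ℤ) + 1 := by push_cast; ring
  have e2 : ((n + 2 : ℕ) : ℤ) = (n : ℤ) + 1 + 1 := by push_cast; ring
  have e0 : (n : ℤ) + 1 - 1 = (n : ℤ) := by ring
  obtain ⟨a0, b0, d0⟩ := h0
  obtain ⟨a1, b1, d1⟩ := h1
  rw [e1] at a1 b1 d1
  unfold CritAt
  rw [e2]
  -- abbreviations
  set u0 := uEv W x (n : ℤ) with hu0
  set u1 := uEv W x ((n : ℤ) + 1) with hu1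
  set u2 := uEv W x ((n : ℤ) + 1 + 1) with hu2
  set f0 := fEv W x (n : ℤ) with hf0
  set f1 := fEv W x ((n : ℤ) + 1) with hf1
  set f2 := fEv W x ((n : ℤ) + 1 + 1) with hf2
  -- the three identities at index n+1
  have hsq : (f1 - x * u1) ^ 2 = u2 * u0 := by
    have := sq_ev W x ((n : ℤ) + 1)
    rwa [e0] at this
  have hsq2 : (f2 - x * u2) ^ 2 = uEv W x ((n : ℤ) + 1 + 1 + 1) * u1 := by
    have := sq_ev W x ((n : ℤ) + 1 + 1)
    rwa [show (n : ℤ) + 1 + 1 - 1 = (n : ℤ) + 1 by ring] at this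
  have hadd : ∀ z : K, f1 = z * u1 → f2 * u0 + f0 * u2 = u1 ^ 2 * sumNum W z x := by
    intro z hz
    have := add_ev' W hA x z hz
    rwa [e0] at this
  have hmul : ∀ z : K, f1 = z * u1 → f2 * f0 = u1 ^ 2 * prodNum W z x := by
    intro z hz
    have := mul_ev' W hM x z hz
    rwa [e0] at this
  have hn2 : (n + 2) • P = (n + 1) • P + P := succ_nsmul P (n + 1)
  have hn1 : (n + 1) • P = n • P + P := succ_nsmul P n
  have hcd := cub_or_dupNum_xOf_ne_zero h2 hP
  by_cases hu1z : u1 = 0
  · -- case (c): (n+1) P = 0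
    have hQ : (n + 1) • P = 0 := a1.mpr hu1z
    have hf1 : f1 ≠ 0 := d1 hu1z
    have hprod : u2 * u0 ≠ 0 := by
      rw [← hsq, hu1z, mul_zero, sub_zero]
      exact pow_ne_zero 2 hf1
    have hu2 : u2 ≠ 0 := left_ne_zero_of_mul hprod
    have hP2 : (n + 2) • P = P := by rw [hn2, hQ, zero_add]
    refine ⟨?_, ?_, ?_⟩
    · rw [hP2]; exact ⟨fun h => absurd h hP, fun h => absurd h hu2⟩
    · intro _
      rw [hP2]
      have : (f2 - x * u2) ^ 2 = 0 := by rw [hsq2, hu1z, mul_zero]
      have := pow_eq_zero_iff (two_ne_zero) |>.mp this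
      exact (sub_eq_zero.mp this).symm
    · intro h; exact absurd h hu2
  · have hQ : (n + 1) • P ≠ 0 := fun h => hu1z (a1.mp h)
    have hxQ : xOf ((n + 1) • P) * u1 = f1 := b1 hQ
    by_cases hu0z : u0 = 0
    · -- case (d): n P = 0, (n+1) P = P, (n+2) P = 2 P
      have hnP : n • P = 0 := a0.mpr hu0z
      have hf0 : f0 ≠ 0 := d0 hu0z
      have hQP : (n + 1) • P = P := by rw [hn1, hnP, zero_add]
      have hP2 : (n + 2) • P = 2 • P := by rw [hn2, hQP, two_nsmul]
      have hf1' : f1 = x * u1 := by rw [← hxQ, hQP]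
      have ha := hadd x hf1'
      have hm := hmul x hf1'
      rw [hu0z, mul_zero, zero_add, sumNum_self] at ha
      rw [prodNum_self] at hm
      have hu1sq : u1 ^ 2 ≠ 0 := pow_ne_zero 2 hu1z
      have hiff : u2 = 0 ↔ cub W x = 0 := by
        constructor
        · intro h
          rw [h, mul_zero] at ha
          exact (mul_eq_zero.mp ha.symm).resolve_left hu1sq
        · intro h
          rw [h, mul_zero] at ha
          exact (mul_eq_zero.mp ha).resolve_left hf0
      refine ⟨?_, ?_, ?_⟩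
      · rw [hP2, two_nsmul_eq_zero_iff_cub hP, hiff]
      · intro hne
        rw [hP2] at hne ⊢
        have hdup := xOf_two_nsmul hP hne
        apply mul_right_cancel₀ hf0
        calc xOf (2 • P) * u2 * f0 = xOf (2 • P) * (f0 * u2) := by ring
          _ = u1 ^ 2 * (xOf (2 • P) * cub W x) := by rw [ha]; ring
          _ = u1 ^ 2 * dupNum W x := by rw [hdup]
          _ = f2 * f0 := hm.symm
      · intro h
        have hc : cub W x = 0 := hiff.mp h
        have hd : dupNum W x ≠ 0 := hcd.resolve_left (fun h' => h' hc)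
        have : f2 * f0 ≠ 0 := by rw [hm]; exact mul_ne_zero hu1sq hd
        exact left_ne_zero_of_mul this
    · have hnP : n • P ≠ 0 := fun h => hu0z (a0.mp h)
      have hxn : xOf (n • P) * u0 = f0 := b0 hnP
      have hf1' : f1 = xOf ((n + 1) • P) * u1 := hxQ.symm
      have hu1sq : u1 ^ 2 ≠ 0 := pow_ne_zero 2 hu1z
      by_cases hxx : xOf ((n + 1) • P) = x
      · -- case (b): (n+1) P = -P
        have hor := eq_or_eq_neg_of_xOf_eq hQ hP hxx
        have hQneg : (n + 1) • P = -P := by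
          rcases hor with h | h
          · exfalso
            apply hnP
            have := hn1
            rw [h] at this
            exact (add_eq_right.mp this.symm)
          · exact h
        have hP2 : (n + 2) • P = 0 := by rw [hn2, hQneg, neg_add_cancel]
        have hu2 : u2 = 0 := by
          have : u2 * u0 = 0 := by
            rw [← hsq, hf1', hxx, sub_self]
            exact zero_pow two_ne_zero
          exact (mul_eq_zero.mp this).resolve_right hu0z
        refine ⟨?_, ?_, ?_⟩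
        · exact ⟨fun _ => hu2, fun _ => hP2⟩
        · intro h; exact absurd hP2 h
        · intro _
          rw [hxx] at hf1'
          have ha := hadd x hf1'
          have hm := hmul x hf1'
          rw [hu2, mul_zero, add_zero, sumNum_self] at ha
          rw [prodNum_self] at hm
          rcases hcd with hc | hd
          · have : f2 * u0 ≠ 0 := by rw [ha]; exact mul_ne_zero hu1sq hc
            exact left_ne_zero_of_mul this
          · have : f2 * f0 ≠ 0 := by rw [hm]; exact mul_ne_zero hu1sq hd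
            exact left_ne_zero_of_mul this
      · -- case (a): generic step
        obtain ⟨hs, hd, hS, -⟩ := xOf_add_sub h2 hQ hP hxx
        have hsum : (n + 1) • P + P = (n + 2) • P := hn2.symm
        have hdiff : (n + 1) • P - P = n • P := by rw [hn1, add_sub_cancel_right]
        rw [hsum, hdiff] at hS
        rw [hsum] at hs
        have hxQx : xOf ((n + 1) • P) - x ≠ 0 := sub_ne_zero.mpr hxx
        have hprod : u2 * u0 = u1 ^ 2 * (xOf ((n + 1) • P) - x) ^ 2 := by
          rw [← hsq, hf1']; ring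
        have hu2 : u2 ≠ 0 := by
          have : u2 * u0 ≠ 0 := by
            rw [hprod]; exact mul_ne_zero hu1sq (pow_ne_zero 2 hxQx)
          exact left_ne_zero_of_mul this
        refine ⟨?_, ?_, ?_⟩
        · exact ⟨fun h => absurd h hs, fun h => absurd h hu2⟩
        · intro _
          have ha := hadd _ hf1'
          apply mul_right_cancel₀ hu0z
          have key : (xOf ((n + 2) • P) + xOf (n • P)) * (u2 * u0) = f2 * u0 + f0 * u2 := by
            rw [ha, hprod, ← hS]; ring
          calc xOf ((n + 2) • P) * u2 * u0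
              = (xOf ((n + 2) • P) + xOf (n • P)) * (u2 * u0) - (xOf (n • P) * u0) * u2 := by
                ring
            _ = f2 * u0 + f0 * u2 - f0 * u2 := by rw [key, hxn]
            _ = f2 * u0 := by ring
        · intro h; exact absurd h hu2

/-- **The criterion** (Step C): for an affine point `P` and all `n`. -/
theorem crit (h2 : (2 : K) ≠ 0)
    (hA : ∀ n : ℕ, 2 ≤ n → StarAdd W (n : ℤ)) (hM : ∀ n : ℕ, 2 ≤ n → StarMul W (n : ℤ))
    {P : W.toAffine.Point} (hP : P ≠ 0) (n : ℕ) : CritAt P n := by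
  have hA' : ∀ n : ℕ, StarAdd W ((n : ℤ) + 1) := by
    intro n
    rcases Nat.eq_zero_or_pos n with rfl | hn
    · simpa using starAdd_one W
    · have := hA (n + 1) (by omega)
      simpa using this
  have hM' : ∀ n : ℕ, StarMul W ((n : ℤ) + 1) := by
    intro n
    rcases Nat.eq_zero_or_pos n with rfl | hn
    · simpa using starMul_one W
    · have := hM (n + 1) (by omega)
      simpa using this
  have key : ∀ n : ℕ, CritAt P n ∧ CritAt P (n + 1) := by
    intro n
    induction n with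
    | zero => exact ⟨critAt_zero P, critAt_one hP⟩
    | succ n ih => exact ⟨ih.2, critAt_step h2 hP n (hA' n) (hM' n) ih.1 ih.2⟩
  exact (key n).1

/-- Corollary in the form used downstream: `n • P = 0 ↔ ΨSq_n (x(P)) = 0`. -/
theorem nsmul_eq_zero_iff (h2 : (2 : K) ≠ 0)
    (hA : ∀ n : ℕ, 2 ≤ n → StarAdd W (n : ℤ)) (hM : ∀ n : ℕ, 2 ≤ n → StarMul W (n : ℤ))
    {x y : K} (h : W.toAffine.Nonsingular x y) (n : ℕ) :
    n • (Point.some x y h) = 0 ↔ (W.ΨSq (n : ℤ)).eval x = 0 :=
  (crit h2 hA hM (Point.some_ne_zero h) n).1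

end Points

end Fermat.Agent.S13.DivX
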