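/-
S13 / P1, piece D-GP (helper6): the generic point `(X, Y)` of a Weierstrass curve `W` over a field
`K`, as a point of `W` over the function field `W.toAffine.FunctionField`, and the values of the
division polynomials at it.
-/
import Fermat.Agent.S13.DivXA
import Mathlib.AlgebraicGeometry.EllipticCurve.DivisionPolynomial.Degree

set_option autoImplicit false
set_option linter.unusedSectionVars false

namespace Fermat.Agent.S13.DivX

open WeierstrassCurve WeierstrassCurve.Affine Polynomial
open scoped Polynomial.Bivariate

variable {K : Type*} [Field K] (W : WeierstrassCurve K)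

/-- The canonical map `K[X][Y] → K(W)`. -/
noncomputable def bivToFF : K[X][Y] →+* W.toAffine.FunctionField :=
  (algebraMap W.toAffine.CoordinateRing W.toAffine.FunctionField).comp
    (CoordinateRing.mk W.toAffine)

/-- The canonical map `K[X] → K(W)`. -/
noncomputable def polyToFF : K[X] →+* W.toAffine.FunctionField :=
  (bivToFF W).comp Polynomial.C

lemma polyToFF_apply (p : K[X]) : polyToFF W p = bivToFF W (C p) := rfl

/-- `x`-coordinate of the generic point. -/
noncomputable def gx : W.toAffine.FunctionField := bivToFF W (C X)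

/-- `y`-coordinate of the generic point. -/
noncomputable def gy : W.toAffine.FunctionField := bivToFF W Y

lemma polyToFF_X : polyToFF W X = gx W := rfl

lemma polyToFF_C (a : K) : polyToFF W (C a) = algebraMap K W.toAffine.FunctionField a := by
  rw [polyToFF_apply, bivToFF, RingHom.comp_apply]
  rfl

lemma polyToFF_injective : Function.Injective (polyToFF W) := by
  have h1 : Function.Injective
      (algebraMap W.toAffine.CoordinateRing W.toAffine.FunctionField) :=
    IsFractionRing.injective _ _
  have h2 : Function.Injective (algebraMap K[X] W.toAffine.CoordinateRing) :=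
    FaithfulSMul.algebraMap_injective _ _
  intro p q hpq
  apply h2
  apply h1
  exact hpq

/-- Evaluating a base-changed bivariate polynomial at the generic point. -/
lemma evalEval_map_generic (p : K[X][Y]) :
    (p.map (mapRingHom (algebraMap K W.toAffine.FunctionField))).evalEval (gx W) (gy W) =
      bivToFF W p := by
  have key : ((evalEvalRingHom (gx W) (gy W)).comp
      (mapRingHom (mapRingHom (algebraMap K W.toAffine.FunctionField)))) = bivToFF W := by
    apply Polynomial.ringHom_ext
    · intro q
      have key2 : ((evalEvalRingHom (gx W) (gy W)).comp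
          (mapRingHom (mapRingHom (algebraMap K W.toAffine.FunctionField)))).comp C =
          (bivToFF W).comp C := by
        apply Polynomial.ringHom_ext
        · intro a
          simp only [RingHom.comp_apply, coe_mapRingHom, map_C, coe_evalRingHom, eval_C]
          rw [← polyToFF_apply, polyToFF_C]
        · simp only [RingHom.comp_apply, coe_mapRingHom, map_C, map_X, coe_evalRingHom, eval_C,
            eval_X]
          rfl
      exact congrArg (fun f => f q) key2
    · simp only [RingHom.comp_apply, coe_mapRingHom, map_X, coe_evalRingHom, eval_X, eval_C]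
      rfl
  exact congrArg (fun f => f p) key

lemma bivToFF_polynomial : bivToFF W W.toAffine.polynomial = 0 := by
  rw [bivToFF, RingHom.comp_apply]
  have : CoordinateRing.mk W.toAffine W.toAffine.polynomial = 0 := AdjoinRoot.mk_self
  rw [this, map_zero]

/-- The curve `W` over its own function field. -/
noncomputable abbrev WF : WeierstrassCurve W.toAffine.FunctionField :=
  W.map (algebraMap K W.toAffine.FunctionField)

lemma generic_equation : (WF W).toAffine.Equation (gx W) (gy W) := by
  rw [Affine.Equation, Affine.map_polynomial, evalEval_map_generic, bivToFF_polynomial]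

lemma bivToFF_polynomialY_ne_zero (h2 : (2 : K) ≠ 0) : bivToFF W W.toAffine.polynomialY ≠ 0 := by
  rw [bivToFF, RingHom.comp_apply]
  intro h0
  have h1 : CoordinateRing.mk W.toAffine W.toAffine.polynomialY = 0 :=
    (IsFractionRing.injective W.toAffine.CoordinateRing W.toAffine.FunctionField)
      (by rw [h0, map_zero])
  have h3 : (C W.a₁ * X + C W.a₃ : K[X]) • (1 : W.toAffine.CoordinateRing) +
      (C 2 : K[X]) • CoordinateRing.mk W.toAffine Y = 0 := by
    rw [← h1, CoordinateRing.smul, CoordinateRing.smul, Affine.polynomialY, ← map_mul, mul_one,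
      ← map_add]
    congr 1
    simp only [map_ofNat, map_add, map_mul]
    ring
  have := (CoordinateRing.smul_basis_eq_zero h3).2
  exact h2 (by simpa using this)

lemma generic_nonsingular (h2 : (2 : K) ≠ 0) : (WF W).toAffine.Nonsingular (gx W) (gy W) := by
  refine ⟨generic_equation W, Or.inr ?_⟩
  rw [Affine.map_polynomialY, evalEval_map_generic]
  exact bivToFF_polynomialY_ne_zero W h2

/-- Value of the `n`-th division polynomial at the generic point. -/
noncomputable def gw (n : ℤ) : W.toAffine.FunctionField := bivToFF W (W.ψ n)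

lemma evalEval_ψ_generic (n : ℤ) :
    ((WF W).ψ n).evalEval (gx W) (gy W) = gw W n := by
  rw [WeierstrassCurve.map_ψ, evalEval_map_generic, gw]

lemma gw_sq (n : ℤ) : gw W n ^ 2 = polyToFF W (W.ΨSq n) := by
  rw [gw, bivToFF, RingHom.comp_apply, ← map_pow, CoordinateRing.mk_ψ, CoordinateRing.mk_Ψ_sq]
  rfl

lemma gw_ne_zero [CharZero K] {n : ℤ} (hn : n ≠ 0) : gw W n ≠ 0 := by
  intro h0
  have h1 : polyToFF W (W.ΨSq n) = 0 := by rw [← gw_sq, h0]; simp
  have h2 : W.ΨSq n = 0 := polyToFF_injective W (by rw [h1, map_zero])
  exact W.ΨSq_ne_zero (by exact_mod_cast hn) h2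

lemma gx_mul_gw_sq_sub (n : ℤ) :
    gx W * gw W n ^ 2 - gw W (n + 1) * gw W (n - 1) = polyToFF W (W.Φ n) := by
  rw [polyToFF_apply, bivToFF, RingHom.comp_apply, ← CoordinateRing.mk_φ, WeierstrassCurve.φ]
  simp only [gx, gw, bivToFF, RingHom.comp_apply, map_sub, map_mul, map_pow]

section Point

variable [DecidableEq W.toAffine.FunctionField]

/-- The generic point `(X, Y)` of `W`, a point over the function field. -/
noncomputable def genericPoint (h2 : (2 : K) ≠ 0) : (WF W).toAffine.Point :=
  Point.some (gx W) (gy W) (generic_nonsingular W h2)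

lemma genericPoint_ne_zero (h2 : (2 : K) ≠ 0) : genericPoint W h2 ≠ 0 :=
  Point.some_ne_zero _

lemma xOf_genericPoint (h2 : (2 : K) ≠ 0) : xOf (genericPoint W h2) = polyToFF W X := rfl

end Point

/-- The multiplication formula "below the first zero" and the vanishing at the first zero
(pieces D-MF and Z), as a statement about a curve over a field. -/
def MFStmt {F : Type*} [Field F] [DecidableEq F] (E : WeierstrassCurve F) : Prop :=
  ∀ (x y : F) (h : E.toAffine.Nonsingular x y) (N : ℕ),
    (∀ k : ℕ, 0 < k → k ≤ N → k • Point.some x y h ≠ 0) →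
    (∀ k : ℕ, 0 < k → k ≤ N →
      xOf (k • Point.some x y h) * (E.ψ k).evalEval x y ^ 2 =
        x * (E.ψ k).evalEval x y ^ 2 -
          (E.ψ (k + 1)).evalEval x y * (E.ψ (k - 1)).evalEval x y) ∧
    ((N + 1) • Point.some x y h = 0 → (E.ψ (N + 1 : ℕ)).evalEval x y = 0)

section Main

variable [CharZero K] [DecidableEq W.toAffine.FunctionField]

lemma two_ne_zero_of_charZero : (2 : K) ≠ 0 := two_ne_zero

/-- No multiple of the generic point vanishes. -/
theorem nsmul_genericPoint_ne_zero (hMF : MFStmt (WF W)) (n : ℕ) (hn : 0 < n) :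
    n • genericPoint W two_ne_zero ≠ 0 := by
  induction n using Nat.strong_induction_on with
  | _ n ih =>
    obtain ⟨N, rfl⟩ : ∃ N, n = N + 1 := ⟨n - 1, by omega⟩
    intro h0
    have hlow : ∀ k : ℕ, 0 < k → k ≤ N → k • Point.some (gx W) (gy W)
        (generic_nonsingular W two_ne_zero) ≠ 0 := fun k hk hkN => ih k (by omega) hk
    have := (hMF (gx W) (gy W) (generic_nonsingular W two_ne_zero) N hlow).2 h0
    rw [evalEval_ψ_generic] at this
    exact gw_ne_zero W (by exact_mod_cast Nat.succ_ne_zero N) this

/-- **H(n)**: the multiplication-by-`n` formula at the generic point. -/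
theorem generic_H (hMF : MFStmt (WF W)) (n : ℕ) (hn : 1 ≤ n) :
    n • genericPoint W two_ne_zero ≠ 0 ∧
      xOf (n • genericPoint W two_ne_zero) * polyToFF W (W.ΨSq n) = polyToFF W (W.Φ n) := by
  refine ⟨nsmul_genericPoint_ne_zero W hMF n hn, ?_⟩
  have hlow : ∀ k : ℕ, 0 < k → k ≤ n → k • Point.some (gx W) (gy W)
      (generic_nonsingular W two_ne_zero) ≠ 0 := fun k hk _ =>
    nsmul_genericPoint_ne_zero W hMF k hk
  have := (hMF (gx W) (gy W) (generic_nonsingular W two_ne_zero) n hlow).1 n hn le_rfl
  rw [evalEval_ψ_generic, evalEval_ψ_generic, evalEval_ψ_generic, gw_sq, ← gw_sq,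
    gx_mul_gw_sq_sub, gw_sq] at this
  exact this

end Main

end Fermat.Agent.S13.DivX
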