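/-
S13 / P1, Step B (helper12): the universal identities `(⋆)`, `(⋆⋆)` (`StarAdd`, `StarMul` of
`Crit.lean`) in `K[X]`, from the multiplication formula `generic_H` at the generic point
(`Generic.lean`, helper6) and the `x`-only addition law (`DivXA.lean`).
Combined with `crit` this gives the criterion `n • P = 0 ↔ ΨSq_n(x(P)) = 0` at every affine point.
-/
import Fermat.Agent.S13.DivPoly.Crit
import Fermat.Agent.S13.DivPoly.Generic

set_option autoImplicit false
set_option linter.unusedSectionVars false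

namespace Fermat.Agent.S13.DivX

open WeierstrassCurve WeierstrassCurve.Affine Polynomial Fermat.Agent.S05

variable {K : Type*} [Field K] (W : WeierstrassCurve K)

lemma polyToFF_ΨSq_ne_zero [CharZero K] {n : ℤ} (hn : n ≠ 0) : polyToFF W (W.ΨSq n) ≠ 0 := by
  rw [← gw_sq]
  exact pow_ne_zero 2 (gw_ne_zero W hn)

lemma polyToFF_Φ_sub [CharZero K] {n : ℤ} (hn1 : n + 1 ≠ 0) (hn2 : n - 1 ≠ 0) :
    polyToFF W (W.Φ n) - gx W * polyToFF W (W.ΨSq n) ≠ 0 := by
  rw [← gx_mul_gw_sq_sub, gw_sq]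
  have : gw W (n + 1) * gw W (n - 1) ≠ 0 := mul_ne_zero (gw_ne_zero W hn1) (gw_ne_zero W hn2)
  intro h
  apply this
  linear_combination -h

section Main

variable [CharZero K] [DecidableEq W.toAffine.FunctionField]

/-- The universal identities `(⋆)` and `(⋆⋆)` at index `m + 1`, `m ≥ 1`. -/
theorem star_of_generic (hMF : MFStmt (WF W)) (m : ℕ) (hm : 1 ≤ m) :
    StarAdd W ((m : ℤ) + 1) ∧ StarMul W ((m : ℤ) + 1) := by
  have h2 : (2 : W.toAffine.FunctionField) ≠ 0 := by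
    intro h
    have h' : algebraMap K W.toAffine.FunctionField 2 = 0 := by rw [map_ofNat]; exact h
    exact (two_ne_zero : (2 : K) ≠ 0) ((map_eq_zero _).mp h')
  set G := genericPoint W (two_ne_zero : (2 : K) ≠ 0) with hG
  have hGne : G ≠ 0 := genericPoint_ne_zero W _
  obtain ⟨hQ0, hx0⟩ := generic_H W hMF m hm
  obtain ⟨hQ1, hx1⟩ := generic_H W hMF (m + 1) (by omega)
  obtain ⟨hQ2, hx2⟩ := generic_H W hMF (m + 2) (by omega)
  have c1 : ((m + 1 : ℕ) : ℤ) = (m : ℤ) + 1 := by push_cast; ring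
  have c2 : ((m + 2 : ℕ) : ℤ) = (m : ℤ) + 1 + 1 := by push_cast; ring
  have c0 : (m : ℤ) + 1 - 1 = (m : ℤ) := by ring
  rw [c1] at hx1
  rw [c2] at hx2
  set U0 := polyToFF W (W.ΨSq (m : ℤ)) with hU0
  set U1 := polyToFF W (W.ΨSq ((m : ℤ) + 1)) with hU1
  set U2 := polyToFF W (W.ΨSq ((m : ℤ) + 1 + 1)) with hU2
  set F0 := polyToFF W (W.Φ (m : ℤ)) with hF0
  set F1 := polyToFF W (W.Φ ((m : ℤ) + 1)) with hF1
  set F2 := polyToFF W (W.Φ ((m : ℤ) + 1 + 1)) with hF2
  have hmz : (m : ℤ) ≠ 0 := by exact_mod_cast (by omega : m ≠ 0)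
  have hU0ne : U0 ≠ 0 := polyToFF_ΨSq_ne_zero W hmz
  have hU1ne : U1 ≠ 0 := polyToFF_ΨSq_ne_zero W (by omega)
  have hU2ne : U2 ≠ 0 := polyToFF_ΨSq_ne_zero W (by omega)
  have hdiff : F1 - gx W * U1 ≠ 0 :=
    polyToFF_Φ_sub W (n := (m : ℤ) + 1) (by omega) (by omega)
  -- `(□)` mapped to the function field
  have hsq : (F1 - gx W * U1) ^ 2 = U2 * U0 := by
    have := congrArg (polyToFF W) (sq_id W ((m : ℤ) + 1))
    rw [c0] at this
    simpa only [map_pow, map_sub, map_mul, polyToFF_X] using this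
  -- x-coordinates
  set a0 := xOf (m • G) with ha0
  set a1 := xOf ((m + 1) • G) with ha1
  set a2 := xOf ((m + 2) • G) with ha2
  have hxx : a1 ≠ xOf G := by
    intro h
    apply hdiff
    rw [← hx1, h, xOf_genericPoint, polyToFF_X]
    ring
  obtain ⟨-, -, hS, hP⟩ := xOf_add_sub h2 hQ1 hGne hxx
  have hsum : (m + 1) • G + G = (m + 2) • G := (succ_nsmul G (m + 1)).symm
  have hsub : (m + 1) • G - G = m • G := by rw [succ_nsmul G m, add_sub_cancel_right]
  rw [hsum, hsub, xOf_genericPoint, polyToFF_X] at hS hP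
  -- clear denominators
  have hden : U1 ^ 2 * (a1 - gx W) ^ 2 = U2 * U0 := by
    rw [← hsq, ← hx1]; ring
  have hb2 : (WF W).b₂ = polyToFF W (C W.b₂) := by rw [polyToFF_C, WeierstrassCurve.map_b₂]
  have hb4 : (WF W).b₄ = polyToFF W (C W.b₄) := by rw [polyToFF_C, WeierstrassCurve.map_b₄]
  have hb6 : (WF W).b₆ = polyToFF W (C W.b₆) := by rw [polyToFF_C, WeierstrassCurve.map_b₆]
  have hb8 : (WF W).b₈ = polyToFF W (C W.b₈) := by rw [polyToFF_C, WeierstrassCurve.map_b₈]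
  have hx1' : a1 * polyToFF W (W.ΨSq ((m : ℤ) + 1)) = polyToFF W (W.Φ ((m : ℤ) + 1)) := hx1
  constructor
  · -- (⋆)
    apply polyToFF_injective W
    rw [c0]
    simp only [map_add, map_mul, map_pow, map_ofNat, polyToFF_X, ← hb2, ← hb4, ← hb6]
    change F2 * U0 + F0 * U2 = _
    have e : (a2 + a0) * (U2 * U0) = U1 ^ 2 * sumNum (WF W) a1 (gx W) := by
      rw [← hS, ← hden]; ring
    have e' : (a2 + a0) * (U2 * U0) = F2 * U0 + F0 * U2 := by
      rw [← hx2, ← hx0]; ring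
    rw [← e', e, sumNum, ← hx1']
    ring
  · -- (⋆⋆)
    apply polyToFF_injective W
    rw [c0]
    simp only [map_sub, map_add, map_mul, map_pow, polyToFF_X, ← hb4, ← hb6, ← hb8]
    change F2 * F0 = _
    have e : (a2 * a0) * (U2 * U0) = U1 ^ 2 * prodNum (WF W) a1 (gx W) := by
      rw [← hP, ← hden]; ring
    have e' : (a2 * a0) * (U2 * U0) = F2 * F0 := by
      rw [← hx2, ← hx0]; ring
    rw [← e', e, prodNum, ← hx1']
    ring

theorem starAdd_of_MF (hMF : MFStmt (WF W)) (n : ℕ) (hn : 2 ≤ n) : StarAdd W (n : ℤ) := by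
  obtain ⟨m, rfl⟩ : ∃ m, n = m + 1 := ⟨n - 1, by omega⟩
  have := (star_of_generic W hMF m (by omega)).1
  simpa using this

theorem starMul_of_MF (hMF : MFStmt (WF W)) (n : ℕ) (hn : 2 ≤ n) : StarMul W (n : ℤ) := by
  obtain ⟨m, rfl⟩ : ∃ m, n = m + 1 := ⟨n - 1, by omega⟩
  have := (star_of_generic W hMF m (by omega)).2
  simpa using this

/-- **The criterion, unconditional up to `MFStmt` at the function field**:
for every affine point `P` of `W` (char `0`) and every `n`. -/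
theorem crit_of_MF [DecidableEq K] (hMF : MFStmt (WF W)) {P : W.toAffine.Point} (hP : P ≠ 0)
    (n : ℕ) : CritAt P n :=
  crit two_ne_zero (starAdd_of_MF W hMF) (starMul_of_MF W hMF) hP n

end Main

end Fermat.Agent.S13.DivX
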