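import Mathlib
import Fermat.Agent.S13.MFSomos
import Fermat.Agent.S13.Interface

/-!
# S13 / D-TZ + D-C bridge (helper68)

`psiAt W x y n` (the value of `ψ_n` at `(x, y)`, from `ZeroTors.lean`) agrees, for odd `n` and
`(x, y)` on the curve, with the value of the univariate polynomial `preΨ_n` at `x`.
Together with `psiAt_eq_zero_of_smul_eq_zero` and `smul_eq_zero_of_psiAt_eq_zero`
(`MFSomos.lean`) this gives `StmtTorsZero` and `StmtZeroTors` of `Interface.lean`.
-/

set_option autoImplicit false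

namespace Fermat.Agent.S13

open WeierstrassCurve WeierstrassCurve.Affine

section Bridge

variable {K : Type*} [Field K] (W : WeierstrassCurve K)

/-- `(2y + a₁x + a₃)² = Ψ₂Sq(x)` on the curve. -/
lemma bridge_eta_sq {x y : K} (h : W.toAffine.Equation x y) :
    (2 * y + W.a₁ * x + W.a₃) ^ 2 = W.Ψ₂Sq.eval x := by
  have h' := (Affine.equation_iff x y).1 h
  simp only [Ψ₂Sq, b₂, b₄, b₆, Polynomial.eval_add, Polynomial.eval_mul, Polynomial.eval_pow,
    Polynomial.eval_X, Polynomial.eval_C]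
  linear_combination 4 * h'

/-- For odd `n`, `ψ_n(x, y) = preΨ_n(x)` on the curve. -/
theorem psiAt_eq_eval_preΨ {x y : K} (h : W.toAffine.Equation x y) {n : ℤ} (hn : Odd n) :
    psiAt W x y n = (W.preΨ n).eval x := by
  have hne : ¬ Even n := Int.not_even_iff_odd.2 hn
  have e1 : (W.preΨ n).eval x =
      preNormEDS ((W.Ψ₂Sq.eval x) ^ 2) (W.Ψ₃.eval x) (W.preΨ₄.eval x) n := by
    rw [WeierstrassCurve.preΨ, ← Polynomial.coe_evalRingHom, map_preNormEDS, map_pow]
  rw [e1, psiAt, normEDS, if_neg hne, mul_one, ← bridge_eta_sq W h]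
  congr 1
  ring

end Bridge

section Frey

open WeierstrassCurve.Affine.Point

/-- **D-TZ**: torsion ⇒ zero of `preΨ_p`. -/
theorem stmtTorsZero : StmtTorsZero := by
  intro P x y h h0
  have hodd : Odd ((P.p : ℕ) : ℤ) := by exact_mod_cast P.hp_odd
  have := psiAt_eq_zero_of_smul_eq_zero (W := (P.freyCurve.baseChange Qbar)) two_ne_zero h P.pp h0
  rw [psiAt_eq_eval_preΨ _ h.1 hodd] at this
  exact this

/-- **D-C**: zero of `preΨ_p` ⇒ torsion. -/
theorem stmtZeroTors : StmtZeroTors := by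
  intro P x y h h0
  have hodd : Odd ((P.p : ℕ) : ℤ) := by exact_mod_cast P.hp_odd
  refine smul_eq_zero_of_psiAt_eq_zero (W := (P.freyCurve.baseChange Qbar)) two_ne_zero h P.p
    P.hppos ?_
  rw [psiAt_eq_eval_preΨ _ h.1 hodd]
  exact h0

end Frey

end Fermat.Agent.S13
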